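import Mathlib
import Fermat.Prelude.Def_EllipticCurve_FrobeniusTrace

set_option autoImplicit false
set_option linter.style.haveILetI false

namespace Fermat.Agent.S54

open Polynomial
open scoped Pointwise

section Horner

variable {L : Type*} [Field L]

/-- Kaplansky's `u, u⁻¹` lemma, in the form needed here: if `x` is a root of a polynomial with
algebraic-integer coefficients, not all of which lie in the prime `Q`, then `x` or `x⁻¹` is a
fraction with denominator outside `Q`. -/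
theorem exists_fraction_or_inv_of_aeval_eq_zero (Q : Ideal (integralClosure ℤ L)) [Q.IsPrime]
    (x : L) :
    ∀ (n : ℕ) (p : (integralClosure ℤ L)[X]), p.natDegree ≤ n → aeval x p = 0 →
      (∃ i, p.coeff i ∉ Q) →
      (∃ s b : integralClosure ℤ L, s ∉ Q ∧ x * s = b) ∨
      (∃ s b : integralClosure ℤ L, s ∉ Q ∧ x⁻¹ * s = b) := by
  intro n
  induction n with
  | zero =>
    intro p hp hx hi
    exfalso
    obtain ⟨i, hi⟩ := hi
    obtain ⟨a, rfl⟩ : ∃ a, p = C a := ⟨_, eq_C_of_natDegree_le_zero hp⟩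
    rw [aeval_C] at hx
    have ha : a = 0 := by
      apply Subtype.ext
      simpa using hx
    subst ha
    simp at hi
  | succ n ih =>
    intro p hp hx hi
    by_cases hdeg : p.natDegree ≤ n
    · exact ih p hdeg hx hi
    have hdeg' : p.natDegree = n + 1 := by omega
    obtain ⟨b, hb⟩ := IsIntegrallyClosedIn.isIntegral_iff.mp
      (isIntegral_leadingCoeff_smul p x hx)
    have hb' : (b : L) = (p.leadingCoeff : L) * x := by
      rw [Subalgebra.smul_def] at hb
      exact hb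
    by_cases hc : p.leadingCoeff ∈ Q
    · by_cases hbQ : b ∈ Q
      · obtain ⟨i, hi⟩ := hi
        apply ih (p.eraseLead + C b * X ^ n)
        · refine (natDegree_add_le _ _).trans (max_le ?_ ?_)
          · exact (eraseLead_natDegree_le p).trans (by omega)
          · exact natDegree_C_mul_X_pow_le b n
        · have h1 := congrArg (aeval x) (eraseLead_add_C_mul_X_pow p)
          rw [hx, map_add, hdeg'] at h1
          simp only [map_add, map_mul, aeval_C, map_pow, aeval_X] at h1 ⊢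
          have h2 : (algebraMap (integralClosure ℤ L) L) b = (b : L) := rfl
          have h3 : (algebraMap (integralClosure ℤ L) L) p.leadingCoeff = (p.leadingCoeff : L) :=
            rfl
          rw [h2, hb']
          rw [h3] at h1
          rw [← h1]
          ring
        · refine ⟨i, ?_⟩
          have hine : i ≠ p.natDegree := by
            rintro rfl
            exact hi hc
          rw [coeff_add, eraseLead_coeff_of_ne i hine, coeff_C_mul_X_pow]
          intro hmem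
          split_ifs at hmem with h
          · exact hi ((Ideal.add_mem_iff_left Q hbQ).mp hmem)
          · rw [add_zero] at hmem
            exact hi hmem
      · right
        have hx0 : x ≠ 0 := by
          rintro rfl
          rw [mul_zero] at hb'
          apply hbQ
          have : b = 0 := Subtype.ext (by simpa using hb')
          rw [this]
          exact Q.zero_mem
        refine ⟨b, p.leadingCoeff, hbQ, ?_⟩
        rw [hb']
        field_simp
    · left
      exact ⟨p.leadingCoeff, b, hc, by rw [hb', mul_comm]⟩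

end Horner

section LocSubring

variable {L : Type*} [Field L]

/-- The localisation of the ring of algebraic integers of `L` at a prime `Q`, as a subring
of `L`. -/
def locSubring (Q : Ideal (integralClosure ℤ L)) [hQ : Q.IsPrime] : Subring L where
  carrier := {y | ∃ s b : integralClosure ℤ L, s ∉ Q ∧ y * s = b}
  mul_mem' := by
    rintro y₁ y₂ ⟨s₁, b₁, hs₁, h₁⟩ ⟨s₂, b₂, hs₂, h₂⟩
    refine ⟨s₁ * s₂, b₁ * b₂, fun h => (hQ.mem_or_mem h).elim hs₁ hs₂, ?_⟩
    push_cast
    rw [← h₁, ← h₂]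
    ring
  one_mem' := ⟨1, 1, (Ideal.ne_top_iff_one Q).mp hQ.ne_top, by simp⟩
  add_mem' := by
    rintro y₁ y₂ ⟨s₁, b₁, hs₁, h₁⟩ ⟨s₂, b₂, hs₂, h₂⟩
    refine ⟨s₁ * s₂, b₁ * s₂ + b₂ * s₁, fun h => (hQ.mem_or_mem h).elim hs₁ hs₂, ?_⟩
    push_cast
    rw [← h₁, ← h₂]
    ring
  zero_mem' := ⟨1, 0, (Ideal.ne_top_iff_one Q).mp hQ.ne_top, by simp⟩
  neg_mem' := by
    rintro y ⟨s, b, hs, h⟩
    refine ⟨s, -b, hs, ?_⟩
    push_cast
    rw [← h]
    ring

theorem mem_locSubring_iff (Q : Ideal (integralClosure ℤ L)) [Q.IsPrime] (y : L) :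
    y ∈ locSubring Q ↔ ∃ s b : integralClosure ℤ L, s ∉ Q ∧ y * s = b :=
  Iff.rfl

theorem coe_mem_locSubring (Q : Ideal (integralClosure ℤ L)) [hQ : Q.IsPrime]
    (b : integralClosure ℤ L) : (b : L) ∈ locSubring Q :=
  ⟨1, b, (Ideal.ne_top_iff_one Q).mp hQ.ne_top, by simp⟩

/-- Every element of `L` or its inverse lies in the localisation at `Q`, provided `L` is
algebraic over `ℚ` and `Q` lies over a prime number. -/
theorem mem_locSubring_or_inv_mem [Algebra ℚ L] [Algebra.IsAlgebraic ℚ L]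
    (Q : Ideal (integralClosure ℤ L)) [Q.IsPrime] (ℓ : ℕ) (hℓ : ℓ.Prime)
    (hQℓ : ∀ a : ℤ, algebraMap ℤ (integralClosure ℤ L) a ∈ Q → (ℓ : ℤ) ∣ a) (x : L) :
    x ∈ locSubring Q ∨ x⁻¹ ∈ locSubring Q := by
  haveI : CharZero L := algebraRat.charZero L
  have hx : IsAlgebraic ℤ x :=
    (IsFractionRing.isAlgebraic_iff ℤ ℚ L).mpr (Algebra.IsAlgebraic.isAlgebraic x)
  obtain ⟨p, hp0, hpx⟩ := hx
  have hprim : p.primPart.IsPrimitive := isPrimitive_primPart p
  have hroot : aeval x p.primPart = 0 := aeval_primPart_eq_zero hp0 hpx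
  have hcoeff : ∃ i, ¬ (ℓ : ℤ) ∣ p.primPart.coeff i := by
    by_contra hall
    push Not at hall
    have hdvd : C (ℓ : ℤ) ∣ p.primPart := (C_dvd_iff_dvd_coeff _ _).mpr hall
    have hunit : IsUnit (ℓ : ℤ) := hprim _ hdvd
    rw [Int.isUnit_iff] at hunit
    have h1 := hℓ.one_lt
    omega
  obtain ⟨i, hi⟩ := hcoeff
  refine exists_fraction_or_inv_of_aeval_eq_zero Q x _
    (p.primPart.map (algebraMap ℤ (integralClosure ℤ L))) le_rfl ?_ ⟨i, ?_⟩
  · rw [aeval_map_algebraMap]
    exact hroot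
  · rw [coeff_map]
    exact fun h => hi (hQℓ _ h)

/-- The localisation of the ring of algebraic integers at a prime over `ℓ`, as a valuation
subring. -/
def locValuationSubring [Algebra ℚ L] [Algebra.IsAlgebraic ℚ L]
    (Q : Ideal (integralClosure ℤ L)) [Q.IsPrime] (ℓ : ℕ) (hℓ : ℓ.Prime)
    (hQℓ : ∀ a : ℤ, algebraMap ℤ (integralClosure ℤ L) a ∈ Q → (ℓ : ℤ) ∣ a) :
    ValuationSubring L :=
  { locSubring Q with
    mem_or_inv_mem' := mem_locSubring_or_inv_mem Q ℓ hℓ hQℓ }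

theorem mem_locValuationSubring_iff [Algebra ℚ L] [Algebra.IsAlgebraic ℚ L]
    (Q : Ideal (integralClosure ℤ L)) [Q.IsPrime] (ℓ : ℕ) (hℓ : ℓ.Prime)
    (hQℓ : ∀ a : ℤ, algebraMap ℤ (integralClosure ℤ L) a ∈ Q → (ℓ : ℤ) ∣ a) (y : L) :
    y ∈ locValuationSubring Q ℓ hℓ hQℓ ↔ ∃ s b : integralClosure ℤ L, s ∉ Q ∧ y * s = b :=
  Iff.rfl

end LocSubring

section Frob

variable (L : Type*) [Field L] [Algebra ℚ L] [IsGalois ℚ L]

theorem isInvariant_integralClosure :
    Algebra.IsInvariant ℤ (integralClosure ℤ L) (L ≃ₐ[ℚ] L) := by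
  refine ⟨fun b hb => ?_⟩
  have h1 : (b : L) ∈ Set.range (algebraMap ℚ L) := by
    rw [InfiniteGalois.mem_range_algebraMap_iff_fixed]
    intro f
    exact congrArg Subtype.val (hb f)
  obtain ⟨q, hq⟩ := h1
  have h2 : IsIntegral ℤ (b : L) := b.2
  rw [← hq, isIntegral_algebraMap_iff (algebraMap ℚ L).injective] at h2
  obtain ⟨a, rfl⟩ := IsIntegrallyClosed.algebraMap_eq_of_integral h2
  refine ⟨a, Subtype.ext ?_⟩
  rw [← hq]
  simp

/-- Existence of a Frobenius element at a prime of the ring of all algebraic integers of a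
Galois extension of `ℚ`. -/
theorem exists_frobenius_integralClosure (ℓ : ℕ) (hℓ : ℓ.Prime) :
    ∃ (Q : Ideal (integralClosure ℤ L)) (_ : Q.IsPrime) (σ : L ≃ₐ[ℚ] L),
      (∀ a : ℤ, algebraMap ℤ (integralClosure ℤ L) a ∈ Q ↔ (ℓ : ℤ) ∣ a) ∧
      (∀ b : integralClosure ℤ L, σ • b ∈ Q ↔ b ∈ Q) ∧
      (∀ b : integralClosure ℤ L, σ • b - b ^ ℓ ∈ Q) := by
  haveI : CharZero L := algebraRat.charZero L
  let P : Ideal ℤ := Ideal.span {(ℓ : ℤ)}
  have hℓ0 : (ℓ : ℤ) ≠ 0 := by exact_mod_cast hℓ.ne_zero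
  haveI hPprime : P.IsPrime :=
    (Ideal.span_singleton_prime hℓ0).mpr (Nat.prime_iff_prime_int.mp hℓ)
  haveI hPmax : P.IsMaximal :=
    hPprime.isMaximal (by simpa [P, Ideal.span_singleton_eq_bot] using hℓ0)
  obtain ⟨Q, -, hQprime, hQP⟩ := Ideal.exists_ideal_over_prime_of_isIntegral P
    (⊥ : Ideal (integralClosure ℤ L)) (by
      rw [Ideal.comap_bot_of_injective _ (FaithfulSMul.algebraMap_injective ℤ _)]
      exact bot_le)
  haveI := hQprime
  haveI : Q.LiesOver P := ⟨hQP.symm⟩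
  haveI : Q.IsMaximal := Ideal.IsMaximal.of_liesOver_isMaximal Q P
  letI : TopologicalSpace (integralClosure ℤ L) := ⊥
  haveI : DiscreteTopology (integralClosure ℤ L) := ⟨rfl⟩
  haveI : ContinuousSMul (L ≃ₐ[ℚ] L) (integralClosure ℤ L) := by
    rw [continuousSMul_iff_stabilizer_isOpen]
    intro b
    convert stabilizer_isOpen_of_isIntegral (K := ℚ) (b : L) using 2
    ext g
    simp [MulAction.mem_stabilizer_iff, Subtype.ext_iff]
  haveI := isInvariant_integralClosure L
  letI := Ideal.Quotient.field P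
  letI := Ideal.Quotient.field Q
  haveI : Fact ℓ.Prime := ⟨hℓ⟩
  have hmemP : ∀ a : ℤ, algebraMap ℤ (integralClosure ℤ L) a ∈ Q ↔ (ℓ : ℤ) ∣ a := by
    intro a
    rw [← Ideal.mem_comap, hQP, Ideal.mem_span_singleton]
  haveI : CharP (integralClosure ℤ L ⧸ Q) ℓ := by
    rw [CharP.charP_iff_prime_eq_zero hℓ]
    have : ((ℓ : ℤ) : integralClosure ℤ L) ∈ Q := by
      have := (hmemP (ℓ : ℤ)).mpr dvd_rfl
      simpa using this
    have h2 := Ideal.Quotient.eq_zero_iff_mem.mpr this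
    simpa using h2
  let F : (integralClosure ℤ L ⧸ Q) →ₐ[ℤ ⧸ P] (integralClosure ℤ L ⧸ Q) :=
    { frobenius (integralClosure ℤ L ⧸ Q) ℓ with
      commutes' := fun r => by
        obtain ⟨r, rfl⟩ := Ideal.Quotient.mk_surjective r
        have h1 : algebraMap (ℤ ⧸ P) (integralClosure ℤ L ⧸ Q) (Ideal.Quotient.mk P r) =
            ((r : ℤ) : integralClosure ℤ L ⧸ Q) :=
          eq_intCast ((algebraMap (ℤ ⧸ P) (integralClosure ℤ L ⧸ Q)).comp (Ideal.Quotient.mk P)) r
        simp only [RingHom.toMonoidHom_eq_coe, OneHom.toFun_eq_coe, MonoidHom.toOneHom_coe,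
          MonoidHom.coe_coe, h1, map_intCast] }
  have hF : Function.Bijective F := Algebra.IsAlgebraic.algHom_bijective F
  obtain ⟨⟨σ, hσ⟩, hσF⟩ := Ideal.Quotient.stabilizerHom_surjective_of_profinite
    (G := L ≃ₐ[ℚ] L) P Q (AlgEquiv.ofBijective F hF)
  refine ⟨Q, hQprime, σ, hmemP, ?_, ?_⟩
  · intro b
    rw [MulAction.mem_stabilizer_iff] at hσ
    conv_lhs => rw [← hσ]
    exact Ideal.smul_mem_pointwise_smul_iff
  · intro b
    have h1 := DFunLike.congr_fun hσF (Ideal.Quotient.mk Q b)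
    rw [Ideal.Quotient.stabilizerHom_apply] at h1
    have h2 : (AlgEquiv.ofBijective F hF) (Ideal.Quotient.mk Q b) =
        Ideal.Quotient.mk Q (b ^ ℓ) := by
      rw [map_pow]
      rfl
    rw [h2] at h1
    exact Ideal.Quotient.eq.mp h1

end Frob

section Main

universe u

variable {L : Type u} [Field L] [Algebra ℚ L] [Algebra.IsAlgebraic ℚ L]

theorem mem_nonunits_locValuationSubring
    (Q : Ideal (integralClosure ℤ L)) [hQ : Q.IsPrime] (ℓ : ℕ) (hℓ : ℓ.Prime)
    (hQℓ : ∀ a : ℤ, algebraMap ℤ (integralClosure ℤ L) a ∈ Q → (ℓ : ℤ) ∣ a) (y : L)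
    (t q : integralClosure ℤ L) (ht : t ∉ Q) (hq : q ∈ Q) (hy : y * t = q) :
    y ∈ (locValuationSubring Q ℓ hℓ hQℓ).nonunits := by
  rw [ValuationSubring.mem_nonunits_iff_or]
  by_cases hy0 : y = 0
  · exact Or.inl hy0
  refine Or.inr fun hmem => ?_
  obtain ⟨s', b', hs', hb'⟩ := hmem
  have h1 : t * s' = q * b' := by
    apply Subtype.ext
    push_cast
    rw [← hy, ← hb']
    field_simp
  have h2 : t * s' ∈ Q := by
    rw [h1]
    exact Q.mul_mem_right _ hq
  exact (hQ.mem_or_mem h2).elim ht hs'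

theorem apply_mem_locValuationSubring
    (Q : Ideal (integralClosure ℤ L)) [hQ : Q.IsPrime] (ℓ : ℕ) (hℓ : ℓ.Prime)
    (hQℓ : ∀ a : ℤ, algebraMap ℤ (integralClosure ℤ L) a ∈ Q → (ℓ : ℤ) ∣ a)
    (σ : L ≃ₐ[ℚ] L) (hσQ : ∀ b : integralClosure ℤ L, σ • b ∈ Q ↔ b ∈ Q) (x : L)
    (hx : x ∈ locValuationSubring Q ℓ hℓ hQℓ) : σ x ∈ locValuationSubring Q ℓ hℓ hQℓ := by
  obtain ⟨s, b, hs, hb⟩ := hx
  refine ⟨σ • s, σ • b, fun h => hs ((hσQ s).mp h), ?_⟩
  have h1 : ((σ • s : integralClosure ℤ L) : L) = σ (s : L) := rfl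
  have h2 : ((σ • b : integralClosure ℤ L) : L) = σ (b : L) := rfl
  rw [h1, h2, ← hb, map_mul]

end Main

section Final

universe u

/-- **Existence of Frobenius elements.** For a Galois extension `L` of `ℚ` (for instance an
algebraic closure) and a prime number `ℓ` there are a valuation subring of `L` over `ℓ` and an
element of the Galois group that is a Frobenius element at it. -/
theorem exists_isFrobeniusAt_of_isGalois (L : Type u) [Field L] [Algebra ℚ L] [IsGalois ℚ L]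
    (ℓ : ℕ) (hℓ : ℓ.Prime) :
    ∃ A : ValuationSubring L, A.LiesOverPrime ℓ ∧ ∃ σ : L ≃ₐ[ℚ] L, A.IsFrobeniusAt σ ℓ := by
  obtain ⟨Q, hQ, σ, hQℓ, hσQ, hσF⟩ := exists_frobenius_integralClosure L ℓ hℓ
  haveI := hQ
  have hQℓ' : ∀ a : ℤ, algebraMap ℤ (integralClosure ℤ L) a ∈ Q → (ℓ : ℤ) ∣ a :=
    fun a ha => (hQℓ a).mp ha
  have h1Q : (1 : integralClosure ℤ L) ∉ Q := (Ideal.ne_top_iff_one Q).mp hQ.ne_top
  refine ⟨locValuationSubring Q ℓ hℓ hQℓ', ?_, σ, ?_⟩
  · -- `ℓ` is a nonunit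
    refine mem_nonunits_locValuationSubring Q ℓ hℓ hQℓ' (ℓ : L) 1
      (algebraMap ℤ (integralClosure ℤ L) (ℓ : ℤ)) h1Q ((hQℓ _).mpr dvd_rfl) ?_
    simp
  · have hσinv : ∀ b : integralClosure ℤ L, σ⁻¹ • b ∈ Q ↔ b ∈ Q := by
      intro b
      have := hσQ (σ⁻¹ • b)
      rw [smul_inv_smul] at this
      exact this.symm
    have hdec : σ ∈ (locValuationSubring Q ℓ hℓ hQℓ').decompositionSubgroup ℚ := by
      rw [MulAction.mem_stabilizer_iff]
      ext x
      rw [ValuationSubring.mem_pointwise_smul_iff_inv_smul_mem]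
      constructor
      · intro hx
        have := apply_mem_locValuationSubring Q ℓ hℓ hQℓ' σ hσQ _ hx
        simpa using this
      · intro hx
        exact apply_mem_locValuationSubring Q ℓ hℓ hQℓ' σ⁻¹ hσinv _ hx
    refine ⟨hdec, fun x => ?_⟩
    obtain ⟨a, rfl⟩ := IsLocalRing.residue_surjective x
    rw [← IsLocalRing.ResidueField.residue_smul, ← map_pow, ← sub_eq_zero, ← map_sub,
      IsLocalRing.residue_eq_zero_iff, ← ValuationSubring.coe_mem_nonunits_iff]
    obtain ⟨s, b, hs, hb⟩ := a.2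
    have hcoe : (((⟨σ, hdec⟩ : (locValuationSubring Q ℓ hℓ hQℓ').decompositionSubgroup ℚ) • a
        - a ^ ℓ : locValuationSubring Q ℓ hℓ hQℓ') : L) = σ (a : L) - (a : L) ^ ℓ := rfl
    rw [hcoe]
    refine mem_nonunits_locValuationSubring Q ℓ hℓ hQℓ' _ (σ • s * s ^ ℓ)
      ((σ • b - b ^ ℓ) * s ^ ℓ - b ^ ℓ * (σ • s - s ^ ℓ)) ?_ ?_ ?_
    · intro h
      rcases hQ.mem_or_mem h with h | h
      · exact hs ((hσQ s).mp h)
      · exact hs (hQ.mem_of_pow_mem _ h)
    · exact Q.sub_mem (Q.mul_mem_right _ (hσF b)) (Q.mul_mem_left _ (hσF s))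
    · have h1 : ((σ • s : integralClosure ℤ L) : L) = σ (s : L) := rfl
      have h2 : ((σ • b : integralClosure ℤ L) : L) = σ (b : L) := rfl
      push_cast
      rw [h1, h2, ← hb, map_mul]
      ring

/-- `AlgebraicClosure ℚ` is Galois over `ℚ`, for the default `ℚ`-algebra structure of a
characteristic zero field (the one the frozen statements elaborate with). -/
theorem isGalois_algebraicClosure_rat : IsGalois ℚ (AlgebraicClosure ℚ) := by
  have h : (DivisionRing.toRatAlgebra : Algebra ℚ (AlgebraicClosure ℚ)) =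
      AlgebraicClosure.instAlgebra ℚ := Subsingleton.elim _ _
  rw [h]
  exact @IsAlgClosure.isGalois ℚ (AlgebraicClosure ℚ) _ _ (AlgebraicClosure.instAlgebra ℚ)
    inferInstance _

/-- **Existence of Frobenius elements in the absolute Galois group of `ℚ`.** For every prime
number `ℓ` there are a valuation subring `A` of `AlgebraicClosure ℚ` lying over `ℓ` and
`σ ∈ Gal(ℚ̄/ℚ)` with `A.IsFrobeniusAt σ ℓ`. -/
theorem exists_isFrobeniusAt (ℓ : ℕ) (hℓ : ℓ.Prime) :
    ∃ A : ValuationSubring (AlgebraicClosure ℚ), A.LiesOverPrime ℓ ∧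
      ∃ σ : AlgebraicClosure ℚ ≃ₐ[ℚ] AlgebraicClosure ℚ, A.IsFrobeniusAt σ ℓ :=
  haveI := isGalois_algebraicClosure_rat
  exists_isFrobeniusAt_of_isGalois (AlgebraicClosure ℚ) ℓ hℓ

end Final

end Fermat.Agent.S54
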